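-- Statement S32 (row 31): the Galois representation of a Hecke deformation datum of level `N` away from `S`,
-- `p` odd, `p ∤ N`, is flat at `p`.
-- Programme S32x: Hopf orders on `J₀(N)[pᵏ]` over `ℤ_(p)` (the order form of S19, programme FF), closure of
-- "has a Hopf order" under equivariant sub-quotients and finite products, the faithful Hecke eigen-submodule
-- `W'` of `T ⊗ T_p J₀(N)` with its Cayley–Hamilton identity, the Morita embedding `V ↪ W'ⁿ`, Artin–Rees.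
import Fermat.Statements.S32
import Fermat.Agent.S32x.Final1B

set_option autoImplicit false
variable {p : ℕ} {N : ℕ} [NeZero N] {S : Finset ℕ}
  {𝒪 : Type} [CommRing 𝒪] [IsDomain 𝒪] [IsDiscreteValuationRing 𝒪]
  [IsAdicComplete (IsLocalRing.maximalIdeal 𝒪) 𝒪]
  {θ : CuspForm.heckeAlgebra N 2 (↑S : Set ℕ) →+* IsLocalRing.ResidueField 𝒪}
  {T : Type} [CommRing T] [IsLocalRing T] [IsNoetherianRing T]
  [IsAdicComplete (IsLocalRing.maximalIdeal T) T] [Algebra 𝒪 T] [IsLocalHom (algebraMap 𝒪 T)]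
  [Module.Finite 𝒪 T] [Module.Free 𝒪 T]
open CuspForm CuspForm.HeckeGaloisRepDatum

namespace Fermat.Agent.S32

theorem result
    [Finite (IsLocalRing.ResidueField 𝒪)] [CharZero 𝒪]
    (hp : p.Prime) (hp2 : p ≠ 2) (hp𝒪 : (p : 𝒪) ∈ IsLocalRing.maximalIdeal 𝒪) (hpN : ¬ p ∣ N)
    (hpS : p ∈ S) (hNS : ∀ q : ℕ, q.Prime → q ∣ N → q ∈ S)
    (H : CuspForm.HeckeGaloisRepDatum N (↑S : Set ℕ) 𝒪 θ T) :
    H.ρ.IsFlatAt p :=
  Fermat.Agent.S32x.Final1.s32 hp hp2 hp𝒪 hpN hpS hNS H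

end Fermat.Agent.S32
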