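import Fermat.Statements.S09
import Fermat.Agent.S12
import Fermat.Agent.Wire.Top1

set_option autoImplicit false
open WeierstrassCurve WeierstrassCurve.Affine WeierstrassCurve.Affine.Point
open CuspForm ModularFormClass UpperHalfPlane
open FreyPackage

namespace Fermat.Agent.S09

theorem result (P : FreyPackage) : GaloisRepIsIrreducible (K := AlgebraicClosure ℚ) ℚ P.freyCurve P.p :=
  Fermat.Agent.Wire.Top1.s09_of_s12 (fun P hp => Fermat.Agent.S12.result P hp) P

end Fermat.Agent.S09
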