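-- Statement S17 (row 16): Mordell–Weil for J₀(N), N ≥ 5 prime: the Galois-fixed points of J₀(N)(ℚ̄)
-- form a finitely generated group.  Programme M17 (`Fermat/Agent/M17/*`): analytic Jacobian
-- `Pic⁰(F_ℂ) ≅ ℂ^g/Λ` (period lattice, reciprocity law), Riemann's theorem for `θ(A - e)`, rationality of
-- theta coordinates along chains of divisors, finite fibres of the theta map, weak Mordell–Weil and a
-- height-free descent.  Final assembly: `RLClose0.s17_of_addRL` fed with the two halves of the additive
-- reciprocity law, (pp) `RecipPoint8.addRL_pp` and (pc) `RecipCuspFinal7.addRL_pc_of_L2` +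
-- `RecipCuspHyp9.tendsto_GH_of_not_equiv`.
import Fermat.Statements.S17
import Fermat.Agent.M17.RLClose0
import Fermat.Agent.M17.RecipPoint8
import Fermat.Agent.M17.RecipCuspFinal7
import Fermat.Agent.M17.RecipCuspHyp9

set_option autoImplicit false
open ModularCurve AlgebraicCurve
open ModularCurve ModularCurve.JZero

namespace Fermat.Agent.S17

theorem result (N : ℕ) [NeZero N] (hN : N.Prime) (hN5 : 5 ≤ N) :
    AddGroup.FG ↥(FixedPoints.addSubgroup ((AlgebraicClosure ℚ) ≃ₐ[ℚ] (AlgebraicClosure ℚ)) (JZero N)) := by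
  exact Fermat.Agent.M17.RLClose0.s17_of_addRL N
    (fun _ L _ _ h25 hne => Fermat.Agent.M17.RecipPoint8.addRL_pp L h25 hne)
    (fun _ L δ => Fermat.Agent.M17.RecipCuspFinal7.addRL_pc_of_L2 L δ
      (fun _ hS _ g' hg hord =>
        Fermat.Agent.M17.RecipCuspHyp9.tendsto_GH_of_not_equiv hS g' hg hord))

end Fermat.Agent.S17
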