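-- Statement S19 (row 18): for a prime ℓ not dividing the level N and every k, the ℓᵏ-torsion of J₀(N) is,
-- Galois-equivariantly, the group of ℚ̄-points of a finite flat commutative group scheme (cocommutative
-- Hopf algebra) over ℤ₍ℓ₎.  Proof: programme FF (Fermat/Agent/FF), final composition
-- `Fermat.Agent.FF.ConcreteD8.s19`.
import Fermat.Statements.S19
import Fermat.Agent.FF.ConcreteD8

set_option autoImplicit false
open ModularCurve
open ModularCurve

namespace Fermat.Agent.S19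

theorem result
    (p : ℕ) [NeZero p] (ℓ : ℕ) [Fact ℓ.Prime] (hℓp : ¬ ℓ ∣ p) (k : ℕ) :
    ∃ (H : Type) (_ : CommRing H) (_ : HopfAlgebra (GaloisRep.ratLocalizedAt ℓ) H),
      Module.Finite (GaloisRep.ratLocalizedAt ℓ) H ∧ Module.Flat (GaloisRep.ratLocalizedAt ℓ) H ∧
      Coalgebra.IsCocomm (GaloisRep.ratLocalizedAt ℓ) H ∧
      ∃ e : WithConv (H →ₐ[GaloisRep.ratLocalizedAt ℓ] AlgebraicClosure ℚ) ≃
          ↥(Submodule.torsionBy ℤ (JZero p) ((ℓ : ℤ) ^ k)),
        (∀ f g, e (f * g) = e f + e g) ∧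
        ∀ (σ : AlgebraicClosure ℚ ≃ₐ[ℚ] AlgebraicClosure ℚ)
          (f g : WithConv (H →ₐ[GaloisRep.ratLocalizedAt ℓ] AlgebraicClosure ℚ)),
          (∀ h : H, g h = σ (f h)) → ((e g : JZero p)) = σ • (e f : JZero p) :=
  Fermat.Agent.FF.ConcreteD8.s19 p ℓ hℓp k

end Fermat.Agent.S19
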