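-- Statement S27 (row 26): `AlgebraicCurve.Pic0.natCard_torsion_pow_eq_pow_two_mul_genusFF_mul_of_charZero`
-- (the l^k-torsion of Pic^0 of a function field of one variable over an algebraically closed field of
-- characteristic 0 has l^(2 g k) elements).
-- Programme M27 (all files under Fermat/Agent/M27/): over the complex numbers the places of F form a compact
-- Riemann surface (chapter A: SurfTopo4, PlaneModel1, ChartPlace8, ChartAsm4, SurfaceMain4), linear equivalence
-- is closed (chapter B: ZCSurf7, LinEqClosed4, CLSurf2), Abel's theorem modulo the countable group of chart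
-- transition constants (chapters C-E: EasyAbel5, AbelData2, AbelOut9) and the lattice count (chapter F: Lattice2,
-- ChainF9, CountPre9) give CountC9.card_torsion_complex; the Lefschetz principle (chapter G: BigField0,
-- LaurentBC3, GenusBC5, GFinal3, Lefschetz0, on top of J/DESC/ExtPic22) gives every algebraically closed
-- constant field of characteristic 0 (Top0.s27_of_countComplex0).
import Fermat.Statements.S27
import Fermat.Agent.M27.Top0
import Fermat.Agent.M27.CountC9

set_option autoImplicit false
set_option autoImplicit false
open AlgebraicCurve
open AlgebraicCurve AlgebraicCurve.Pic0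

namespace Fermat.Agent.S27

theorem result
    (K F : Type*) [Field K] [Field F] [Algebra K F] [IsAlgClosed K] [CharZero K]
    [IsCurveOver K F] [Algebra.EssFiniteType K F]
    (ℓ : ℕ) [Fact ℓ.Prime] (k : ℕ) :
    Nat.card (Pic0.torsion K F (ℓ ^ k)) = ℓ ^ (2 * genusFF K F * k) := by
  exact Fermat.Agent.M27.Top0.s27_of_countComplex0
    (fun hx _ hn => Fermat.Agent.M27.CountC9.card_torsion_complex hx hn) K F ℓ k

end Fermat.Agent.S27
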