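-- Statement S43 (row 37): the theorem FreyPackage.level_lowering_odd_prime_of_conductorLevel.
-- The statement below is byte-identical to the frozen statement (Fermat/Statements/S43.lean).
-- Proof: Programme M43 (Fermat/Agent/M43): `TopHecke2.s43_of_lgq` (top frame: Hecke side, level
-- chain, Carayol/Ribet frame) applied to `BridgeClose3.lgqFamilyStmt` ((LG-q) at every chain prime).
import Fermat.Statements.S43
import Fermat.Agent.M43.TopHecke2
import Fermat.Agent.M43.BridgeClose3

set_option autoImplicit false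
open WeierstrassCurve WeierstrassCurve.Affine WeierstrassCurve.Affine.Point
open CuspForm ModularFormClass UpperHalfPlane
open FreyPackage

namespace Fermat.Agent.S43

theorem result (P : FreyPackage) {N q : ℕ} (hcond : P.IsConductorLevel N) (hq : q.Prime) (hq2 : q ≠ 2) (hqp : q ≠ P.p) (hqN : q ∣ N) (hirr : GaloisRepIsIrreducible (K := AlgebraicClosure ℚ) ℚ P.freyCurve P.p) (hmod : P.ModularRepOfLevel N) (hunr : P.GaloisRepUnramifiedAt q) : ∃ M : ℕ, M ∣ N ∧ ¬ q ∣ M ∧ P.ModularRepOfLevel M :=
  Fermat.Agent.M43.TopHecke2.s43_of_lgq Fermat.Agent.M43.BridgeClose3.lgqFamilyStmt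
    P hcond hq hq2 hqp hqN hirr hmod hunr

end Fermat.Agent.S43
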