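-- Statement S48 (row 43): `DeligneSerre.exists_galoisRep_of_weightOne_qCoeff_hecke_eigen` (Deligne-Serre).
-- Programme M48 (all files under Fermat/Agent/M48/): S48Final0.s48_of_cuspFam reduces the statement to the
-- cusp-family statement (CuspFamMain4.cuspFamStmt) and the two-chart models of X_1(M) at the base pairs
-- (4, 8) and (9, 3) (ModelAtTop1.hmodel_four, ModelAtTop1.hmodel_nine); the Igusa input is IG1Main9.ig1.
import Fermat.Statements.S48
import Fermat.Agent.M48.S48Final0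
import Fermat.Agent.M48.CuspFamMain4
import Fermat.Agent.M48.ModelAtTop1

set_option autoImplicit false
set_option autoImplicit false
open CongruenceSubgroup
open scoped MatrixGroups
local notation "Γℚ" => (AlgebraicClosure ℚ ≃ₐ[ℚ] AlgebraicClosure ℚ)
open DeligneSerre

namespace Fermat.Agent.S48

theorem result
    (N : ℕ) [NeZero N] (ε : DirichletCharacter ℂ N) (f : CuspForm (Gamma1 N) 1)
    (hf₁ : ModularFormClass.qCoeff f 1 = 1)
    (hT : ∀ p : ℕ, p.Prime → ¬ p ∣ N → ∀ n : ℕ,
        ModularFormClass.qCoeff f (p * n) +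
            ε (p : ZMod N) * (if p ∣ n then ModularFormClass.qCoeff f (n / p) else 0) =
          ModularFormClass.qCoeff f p * ModularFormClass.qCoeff f n) :
    ∃ ρ : Γℚ →* GL (Fin 2) ℂ, GaloisFactorsThroughFiniteLevel ρ ∧
      (Deformation.matrixRepresentation ρ).IsIrreducible ∧
      ∀ p : ℕ, p.Prime → ¬ p ∣ N →
        ∀ A : ValuationSubring (AlgebraicClosure ℚ), A.LiesOverPrime p →
          (∀ σ ∈ A.inertiaSubgroupIn ℚ, ρ σ = 1) ∧
          ∀ σ : Γℚ, A.IsFrobeniusAt σ p →
            ((ρ σ : GL (Fin 2) ℂ) : Matrix (Fin 2) (Fin 2) ℂ).trace = ModularFormClass.qCoeff f p ∧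
            ((ρ σ : GL (Fin 2) ℂ) : Matrix (Fin 2) (Fin 2) ℂ).det = ε (p : ZMod N) := by
  exact Fermat.Agent.M48.S48Final0.s48_of_cuspFam Fermat.Agent.M48.CuspFamMain4.cuspFamStmt
    Fermat.Agent.M48.ModelAtTop1.hmodel_four Fermat.Agent.M48.ModelAtTop1.hmodel_nine N ε f hf₁ hT

end Fermat.Agent.S48
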