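-- S58 (row 52): conductor–level matching for semistable integral models.
-- Proof: `WireA.s58_of_rel` (local analysis at the primes of `N`, earlier chain `LocalOfEC12`, plus
-- `InertiaFixA.ecFacts_inertia`) fed with the Eichler–Shimura relation on the generic fibre
-- `RelQbar8.relQbar` (char-`r` Frobenius relation `FrobRel8F.frob_rel` + reduction glue `Red9`).
import Fermat.Statements.S58
import Fermat.Agent.ES.Q58.WireA
import Fermat.Agent.ES.Q58.RelQbar8

set_option autoImplicit false
set_option autoImplicit false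
open WeierstrassCurve

namespace Fermat.Agent.S58

theorem result
    (W : WeierstrassCurve ℤ) (hss : W.IsSemistableModel) (N : ℕ)
    (p : ℕ) [Fact p.Prime] (hp2 : p ≠ 2) (hirr : W.ModRepIsIrreducible p)
    (hp2N : ¬ p ^ 2 ∣ N)
    (hN : W.IsModularModelOfLevel N) (hbad : ∀ ℓ : ℕ, ℓ.Prime → (ℓ : ℤ) ∣ W.Δ → ℓ ∣ N)
    (hN3 : ∀ q : ℕ, q.Prime → ¬ q ^ 3 ∣ N) :
    W.IsModularModelOfLevel W.conductorLevel := by
  exact Fermat.Agent.ES.Q58.WireA.s58_of_rel W hss N hN hbad hN3
    (Fermat.Agent.ES.Q58.RelQbar8.relQbar W)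

end Fermat.Agent.S58
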